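/-
S36, modular part, block S0, task S36-MOD-E2 (helper230).
The expansion at the middle cusp `1/(N0 q)` of `X₀(N0 q²)`, for one primitive `q`-th root of unity.

`γ = !![1, 0; N0 q, 1]`.  For `d ∣ N0 q`: `j (d γ τ) = j (d τ)`.  For `δ ∣ N0`, `b₁ N0 + y q = 1`:
`diag(δ q², 1) γ = !![q, -δ b₁; N0/δ, y] * !![δ q, δ b₁; 0, q]`, so `j (δ q² γ τ) = j (δ (τ + b₁/q))`.
-/
import Fermat.Agent.S24.B.Gamma0

set_option autoImplicit false

noncomputable section

namespace Fermat.Agent.S36.Mod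

open ModularCurve Fermat.Agent.S24 Fermat.Agent.S24.B UpperHalfPlane
open scoped MatrixGroups Real

/-- If all the generators `γ • j(dτ)` have an expansion in `t ^ e`, then so do all the `γ • f`. -/
theorem exists_qExpand_eq_texpL_smul {N : ℕ} [NeZero N] (e : ℕ) [NeZero e] (γ : SL(2, ℤ))
    (h : ∀ (d : ℕ) [NeZero d] (hd : d ∣ N), ∃ x, qExpand Kbar e x = texp N (γ • jd N d hd))
    (f : FN N) : ∃ x, qExpand Kbar e x = texpL N (γ • Psi N f) := by
    induction f using FN_induction with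
    | hJ d _ hd =>
      obtain ⟨x, hx⟩ := h d hd
      exact ⟨x, by rw [hx, Psi_JF, smul_algebraMap_AL, texpL_algebraMap]⟩
    | hc c =>
      refine ⟨algebraMap Kbar _ c, ?_⟩
      rw [AlgHom.commutes, smul_algebraMap_Kbar, AlgHom.commutes,
        algebraMap_laurentSeries_eq_single, qExpand_single, mul_zero]
    | hadd f g hf hg =>
      obtain ⟨x, hx⟩ := hf
      obtain ⟨y, hy⟩ := hg
      exact ⟨x + y, by rw [map_add, hx, hy, map_add, smul_add, map_add]⟩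
    | hneg f hf =>
      obtain ⟨x, hx⟩ := hf
      exact ⟨-x, by rw [map_neg, hx, map_neg, smul_neg, map_neg]⟩
    | hmul f g hf hg =>
      obtain ⟨x, hx⟩ := hf
      obtain ⟨y, hy⟩ := hg
      exact ⟨x * y, by rw [map_mul, hx, hy, map_mul, smul_mul', map_mul]⟩
    | hinv f hf =>
      obtain ⟨x, hx⟩ := hf
      exact ⟨x⁻¹, by rw [map_inv₀, hx, map_inv₀, smul_inv'', map_inv₀]⟩

set_option maxHeartbeats 1000000 in
/-- If all the generators `γ • j(dτ)` have an expansion in `t ^ e`, then `f ↦ γ • f` followed by the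
expansion in `t ^ e` is a homomorphism on the function field. -/
theorem exists_algHom_of_texp_range {N : ℕ} [NeZero N] (e : ℕ) [NeZero e] (γ : SL(2, ℤ))
    (h : ∀ (d : ℕ) [NeZero d] (hd : d ∣ N), ∃ x, qExpand Kbar e x = texp N (γ • jd N d hd)) :
    ∃ σ : FN N →ₐ[Kbar] LaurentSeries Kbar,
      ∀ f : FN N, qExpand Kbar e (σ f) = texpL N (γ • Psi N f) := by
  choose σ hσ using exists_qExpand_eq_texpL_smul e γ h
  have inj : Function.Injective (qExpand Kbar e) := qExpand_injective e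
  have h1 : σ 1 = 1 := inj (by
    rw [hσ, map_one (Psi N), smul_one, map_one (texpL N), map_one (qExpand Kbar e)])
  have hm : ∀ f g, σ (f * g) = σ f * σ g := fun f g => inj (by
    rw [hσ, map_mul (Psi N), smul_mul', map_mul (texpL N), map_mul (qExpand Kbar e), hσ, hσ])
  have h0 : σ 0 = 0 := inj (by
    rw [hσ, map_zero (Psi N), smul_zero, map_zero (texpL N), map_zero (qExpand Kbar e)])
  have ha : ∀ f g, σ (f + g) = σ f + σ g := fun f g => inj (by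
    rw [hσ, map_add (Psi N), smul_add, map_add (texpL N), map_add (qExpand Kbar e), hσ, hσ])
  have hc : ∀ c : Kbar, σ (algebraMap Kbar (FN N) c) = algebraMap Kbar (LaurentSeries Kbar) c :=
    fun c => inj (by
      rw [hσ, (Psi N).commutes, smul_algebraMap_Kbar, (texpL N).commutes,
        algebraMap_laurentSeries_eq_single, qExpand_single, mul_zero])
  exact ⟨{ toFun := σ, map_one' := h1, map_mul' := hm, map_zero' := h0, map_add' := ha,
           commutes' := hc }, hσ⟩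

/-- `twist` and `qExpand`. -/
theorem twist_qExpand (ζ : Kbarˣ) (d : ℕ) [NeZero d] (s : LaurentSeries Kbar) :
    twist ζ (qExpand Kbar d s) = qExpand Kbar d (twist (ζ ^ d) s) := by
  ext k
  by_cases hk : (d : ℤ) ∣ k
  · obtain ⟨m, rfl⟩ := hk
    rw [twist_coeff, qExpand_coeff_mul, qExpand_coeff_mul, twist_coeff, zpow_mul, zpow_natCast]
  · rw [twist_coeff, qExpand_coeff_of_not_dvd d _ hk, qExpand_coeff_of_not_dvd d _ hk, mul_zero]

/-- The matrix `!![1, 0; c, 1]`. -/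
def lowMat (c : ℤ) : SL(2, ℤ) := ⟨!![1, 0; c, 1], by simp [Matrix.det_fin_two_of]⟩

/-- If `α γ = γ' α'` then `j (α γ τ) = j (α' τ)`. -/
theorem jfun_smul_smul_of_int_eq (g g' : GL (Fin 2) ℝ) (α α' : Matrix (Fin 2) (Fin 2) ℤ)
    (hg : (g : Matrix (Fin 2) (Fin 2) ℝ) = α.map (Int.cast : ℤ → ℝ))
    (hg' : (g' : Matrix (Fin 2) (Fin 2) ℝ) = α'.map (Int.cast : ℤ → ℝ)) (γ γ' : SL(2, ℤ))
    (h : α * γ.1 = γ'.1 * α') (τ : ℍ) :
    jfun (g • γ • τ) = jfun (g' • τ) := by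
  have h0 : g * (γ : GL (Fin 2) ℝ) = (γ' : GL (Fin 2) ℝ) * g' := by
    apply Units.ext
    rw [Units.val_mul, Units.val_mul, hg, hg']
    have h2 := congrArg (fun M : Matrix (Fin 2) (Fin 2) ℤ => M.map (Int.cast : ℤ → ℝ)) h
    have e1 : ((γ : GL (Fin 2) ℝ) : Matrix (Fin 2) (Fin 2) ℝ) = γ.1.map (Int.cast : ℤ → ℝ) := by
      ext i j; simp
    have e2 : ((γ' : GL (Fin 2) ℝ) : Matrix (Fin 2) (Fin 2) ℝ) = γ'.1.map (Int.cast : ℤ → ℝ) := by
      ext i j; simp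
    rw [e1, e2]
    have m1 := Matrix.map_mul (L := α) (M := γ.1) (f := Int.castRingHom ℝ)
    have m2 := Matrix.map_mul (L := γ'.1) (M := α') (f := Int.castRingHom ℝ)
    simp only [Int.coe_castRingHom] at m1 m2
    rw [← m1, ← m2]
    exact h2
  have h1 : g • γ • τ = γ' • g' • τ := by
    show g • (γ : GL (Fin 2) ℝ) • τ = (γ' : GL (Fin 2) ℝ) • g' • τ
    rw [← mul_smul, ← mul_smul, h0]
  rw [h1, Stubs.jfun_smul]

theorem coe_triMat_int (a b d : ℤ) (ha : 0 < a) (hd : 0 < d) :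
    (triMat a b d ha hd : Matrix (Fin 2) (Fin 2) ℝ) = (!![a, b; 0, d]).map (Int.cast : ℤ → ℝ) := by
  rw [coe_triMat]
  ext i j
  fin_cases i <;> fin_cases j <;> simp

theorem jfun_dilMat_lowMat (N0 q : ℕ) [NeZero q] (b1 y : ℤ)
    (hb : b1 * N0 + y * q = 1) (δ : ℕ) [NeZero δ] (hδ : δ ∣ N0)
    (ha : (0 : ℤ) < (δ : ℤ) * q) (hd : (0 : ℤ) < (q : ℤ)) (τ : ℍ) :
    jfun (dilMat (δ * q * q) • lowMat ((N0 : ℤ) * q) • τ)
      = jfun (triMat ((δ : ℤ) * q) ((δ : ℤ) * b1) q ha hd • τ) := by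
  obtain ⟨m, rfl⟩ := hδ
  push_cast at hb
  let γ' : SL(2, ℤ) := ⟨!![(q : ℤ), -((δ : ℤ) * b1); (m : ℤ), y], by
    rw [Matrix.det_fin_two_of]
    linear_combination hb⟩
  refine jfun_smul_smul_of_int_eq _ _ _ _ (coe_dilMat _) (coe_triMat_int _ _ _ ha hd)
    (lowMat (((δ * m : ℕ) : ℤ) * q)) γ' ?_ τ
  ext i j
  fin_cases i <;> fin_cases j <;>
    simp [γ', lowMat, Matrix.mul_apply, Fin.sum_univ_two]
  · ring
  · ring
  · ring
  · linear_combination (-1 : ℤ) * hb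

theorem texp_smul_jd_mid (N0 q : ℕ) [NeZero N0] [NeZero q] (b1 y : ℤ)
    (hb : b1 * N0 + y * q = 1) (δ : ℕ) [NeZero δ] (hδ : δ ∣ N0)
    (h1 : δ * q * q ∣ N0 * q * q) :
    texp (N0 * q * q) ((lowMat ((N0 : ℤ) * q))⁻¹ • jd (N0 * q * q) (δ * q * q) h1)
      = qExpand Kbar (N0 * q * q) (twist (zetaK q ^ b1) (Jser δ)) := by
  apply texp_eq
  have hδpos : (0 : ℤ) < δ := by exact_mod_cast Nat.pos_of_ne_zero (NeZero.ne δ)
  have hd : (0 : ℤ) < (q : ℤ) := by exact_mod_cast Nat.pos_of_ne_zero (NeZero.ne q)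
  have ha : (0 : ℤ) < (δ : ℤ) * q := mul_pos hδpos hd
  have hfun : ((lowMat ((N0 : ℤ) * q))⁻¹ • jd (N0 * q * q) (δ * q * q) h1).1
      = fun τ => jfun (triMat ((δ : ℤ) * q) ((δ : ℤ) * b1) q ha hd • τ) := by
    funext τ
    rw [smul_AL_apply, inv_inv]
    exact jfun_dilMat_lowMat N0 q b1 y hb δ hδ ha hd τ
  rw [hfun]
  have h := hasTExp_tri (N := N0 * q * q) Stubs.hasTExp_jfun ((δ : ℤ) * q) ((δ : ℤ) * b1) q ha hd
    (N0 * q * q * δ) (by push_cast; ring) ((zetaK q ^ b1) ^ δ) (by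
      rw [← zpow_natCast, ← zpow_mul, iota_zetaK_zpow]
      congr 1
      push_cast
      ring)
  rw [Jser_eq_qExpand δ, twist_qExpand, qExpand_qExpand]
  exact h

theorem exists_eq_mul_of_dvd_of_not_dvd {N0 q d : ℕ} (hq : q.Prime) (hd : d ∣ N0 * q * q)
    (hdq : ¬ d ∣ N0 * q) : ∃ δ, δ ∣ N0 ∧ d = δ * q * q := by
  rw [mul_assoc, Nat.dvd_mul] at hd
  obtain ⟨d1, d2, h1, h2, rfl⟩ := hd
  rw [← sq, Nat.dvd_prime_pow hq] at h2
  obtain ⟨i, hi, rfl⟩ := h2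
  interval_cases i
  · exact absurd (by simpa using h1.mul_right q) hdq
  · exact absurd (by simpa using Nat.mul_dvd_mul_right h1 q) hdq
  · exact ⟨d1, h1, by ring⟩

/-- **The expansion at the middle cusp**, for one primitive `q`-th root of unity. -/
theorem exists_mid_bar_aux' (N0 q : ℕ) [NeZero N0] [NeZero q] (hq : q.Prime) (hqN : ¬ q ∣ N0) :
    ∃ ζ : Kbarˣ, IsPrimitiveRoot ζ q ∧ ∃ σ : FN (N0 * q * q) →ₐ[Kbar] LaurentSeries Kbar,
      (∀ (d : ℕ) [NeZero d], d ∣ N0 * q → ∀ h1 : d ∣ N0 * q * q,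
        σ (JF (N0 * q * q) d h1) = Jser d) ∧
      (∀ (d : ℕ) [NeZero d], d ∣ N0 → ∀ h1 : d * q * q ∣ N0 * q * q,
        σ (JF (N0 * q * q) (d * q * q) h1) = B.twist ζ (Jser d)) := by
  have hcop : IsCoprime (N0 : ℤ) (q : ℤ) := by
    rw [Nat.isCoprime_iff_coprime]
    exact ((Nat.Prime.coprime_iff_not_dvd hq).2 hqN).symm
  obtain ⟨b1, y, hb⟩ := hcop
  have hlow : ∀ (d : ℕ) [NeZero d], d ∣ N0 * q → ∀ h1 : d ∣ N0 * q * q,
      texp (N0 * q * q) ((lowMat ((N0 : ℤ) * q))⁻¹ • jd (N0 * q * q) d h1)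
        = qExpand Kbar (N0 * q * q) (Jser d) := by
    intro d _ hd h1
    rw [smul_jd_of_dvd _ d h1 (by
      rw [inv_inv]
      show (d : ℤ) ∣ (N0 : ℤ) * q
      exact_mod_cast hd), texp_jd]
  obtain ⟨σ, hσ⟩ := exists_algHom_of_texp_range (N := N0 * q * q) (N0 * q * q)
    (lowMat ((N0 : ℤ) * q))⁻¹ (by
      intro d _ hd
      by_cases hdq : d ∣ N0 * q
      · exact ⟨_, (hlow d hdq hd).symm⟩
      · obtain ⟨δ, hδ, rfl⟩ := exists_eq_mul_of_dvd_of_not_dvd hq hd hdq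
        have : NeZero δ := ⟨by
          rintro rfl
          exact NeZero.ne N0 (Nat.eq_zero_of_zero_dvd hδ)⟩
        exact ⟨_, (texp_smul_jd_mid N0 q b1 y hb δ hδ hd).symm⟩)
  refine ⟨zetaK q ^ b1, ?_, σ, ?_, ?_⟩
  · refine (isPrimitiveRoot_zetaK q).zpow_of_gcd_eq_one b1 ?_
    rw [← Int.isCoprime_iff_gcd_eq_one]
    exact ⟨N0, y, by linear_combination hb⟩
  · intro d _ hd h1
    apply qExpand_injective (N0 * q * q)
    rw [hσ, Psi_JF, smul_algebraMap_AL, texpL_algebraMap, hlow d hd h1]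
  · intro d _ hd h1
    apply qExpand_injective (N0 * q * q)
    rw [hσ, Psi_JF, smul_algebraMap_AL, texpL_algebraMap, texp_smul_jd_mid N0 q b1 y hb d hd h1]

end Fermat.Agent.S36.Mod

end
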