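/-
S36, modular part, task S36-MOD-E2b (helper266).

The expansion at the middle cusp for EVERY primitive `q`-th root of unity, from the expansion for ONE
primitive root: conjugate by an element of `Gal(ℚ̄/ℚ)` acting on the coefficients.
-/
import Fermat.Agent.S24.B.Laurent
import Fermat.Agent.S24.Defs
import Fermat.Agent.GAL.E.Defs

set_option autoImplicit false
set_option linter.unusedVariables false

noncomputable section

namespace Fermat.Agent.S36.Mod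

open ModularCurve Fermat.Agent.S24

namespace MidAll

/-- two primitive `q`-th roots of unity of `ℚ̄` are conjugate -/
theorem exists_gal_of_isPrimitiveRoot {q : ℕ} [NeZero q] {ζ₀ ζ : Kbarˣ} (h₀ : IsPrimitiveRoot ζ₀ q)
    (h : IsPrimitiveRoot ζ q) : ∃ τ : Kbar ≃ₐ[ℚ] Kbar, τ (ζ₀ : Kbar) = (ζ : Kbar) := by
  have h₀' : IsPrimitiveRoot (ζ₀ : Kbar) q := IsPrimitiveRoot.coe_units_iff.mpr h₀
  have h' : IsPrimitiveRoot (ζ : Kbar) q := IsPrimitiveRoot.coe_units_iff.mpr h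
  have hm₀ : minpoly ℚ (ζ₀ : Kbar) = Polynomial.cyclotomic q ℚ :=
    (Polynomial.cyclotomic_eq_minpoly_rat h₀' (NeZero.pos q)).symm
  have hm : minpoly ℚ (ζ : Kbar) = Polynomial.cyclotomic q ℚ :=
    (Polynomial.cyclotomic_eq_minpoly_rat h' (NeZero.pos q)).symm
  have halg : Algebra.IsAlgebraic ℚ Kbar := AlgebraicClosure.isAlgebraic ℚ
  have hcl : IsAlgClosure ℚ Kbar := ⟨inferInstance, halg⟩
  have hnorm : Normal ℚ Kbar := IsAlgClosure.normal ℚ Kbar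
  refine minpoly.exists_algEquiv_of_root (Algebra.IsAlgebraic.isAlgebraic _) ?_
  rw [hm, ← hm₀]
  exact minpoly.aeval ℚ _

/-- coefficientwise Galois action and twisting -/
theorem coeffMap_twist (τ : Kbar ≃ₐ[ℚ] Kbar) {ζ₀ ζ : Kbarˣ} (h : τ (ζ₀ : Kbar) = (ζ : Kbar))
    (s : LaurentSeries Kbar) :
    coeffMap (τ : Kbar →+* Kbar) (B.twist ζ₀ s) = B.twist ζ (coeffMap (τ : Kbar →+* Kbar) s) := by
  ext n
  rw [coeffMap_coeff, B.twist_coeff, B.twist_coeff, coeffMap_coeff, map_mul]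
  congr 1
  rw [Units.val_zpow_eq_zpow_val, Units.val_zpow_eq_zpow_val]
  change τ ((ζ₀ : Kbar) ^ n) = _
  rw [map_zpow₀, h]

theorem coeffMap_Jser (τ : Kbar ≃ₐ[ℚ] Kbar) (d : ℕ) [NeZero d] :
    coeffMap (τ : Kbar →+* Kbar) (Jser d) = Jser d := coeffMap_coeffEmb τ _

theorem galF_JF (N : ℕ) (τ : Kbar ≃ₐ[ℚ] Kbar) (d : ℕ) [NeZero d] (hd : d ∣ N) :
    GAL.E.galF N τ (JF N d hd) = JF N d hd :=
  Subtype.ext (by rw [GAL.E.coe_galF]; exact coeffMap_Jser τ d)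

/-- conjugation of a `ℚ̄`-embedding `FN N → ℚ̄((t))` by `τ ∈ Gal(ℚ̄/ℚ)` -/
def conj (N : ℕ) (τ : Kbar ≃ₐ[ℚ] Kbar) (σ₀ : FN N →ₐ[Kbar] LaurentSeries Kbar) :
    FN N →ₐ[Kbar] LaurentSeries Kbar where
  toRingHom := (coeffMap (τ : Kbar →+* Kbar)).comp
    (σ₀.toRingHom.comp (GAL.E.galF N τ⁻¹ : FN N →+* FN N))
  commutes' c := by
    change coeffMap (τ : Kbar →+* Kbar) (σ₀ (GAL.E.galF N τ⁻¹ (algebraMap Kbar (FN N) c))) = _
    rw [GAL.E.galF_algebraMap, σ₀.commutes, coeffMap_algebraMap]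
    congr 1
    exact τ.apply_symm_apply c

theorem conj_apply (N : ℕ) (τ : Kbar ≃ₐ[ℚ] Kbar) (σ₀ : FN N →ₐ[Kbar] LaurentSeries Kbar) (f : FN N) :
    conj N τ σ₀ f = coeffMap (τ : Kbar →+* Kbar) (σ₀ (GAL.E.galF N τ⁻¹ f)) := rfl

end MidAll

open MidAll

/-- **The expansion at the middle cusp**, for every primitive `q`-th root of unity, from the
expansion for one primitive root. -/
theorem exists_mid_bar' (N0 q : ℕ) [NeZero N0] [NeZero q] (hq : q.Prime) (hqN : ¬ q ∣ N0)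
    (haux : ∃ ζ : Kbarˣ, IsPrimitiveRoot ζ q ∧
      ∃ σ : FN (N0 * q * q) →ₐ[Kbar] LaurentSeries Kbar,
      (∀ (d : ℕ) [NeZero d], d ∣ N0 * q → ∀ h1 : d ∣ N0 * q * q,
        σ (JF (N0 * q * q) d h1) = Jser d) ∧
      (∀ (d : ℕ) [NeZero d], d ∣ N0 → ∀ h1 : d * q * q ∣ N0 * q * q,
        σ (JF (N0 * q * q) (d * q * q) h1) = B.twist ζ (Jser d)))
    (ζ : Kbarˣ) (hζ : IsPrimitiveRoot ζ q) :
    ∃ σ : FN (N0 * q * q) →ₐ[Kbar] LaurentSeries Kbar,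
      (∀ (d : ℕ) [NeZero d], d ∣ N0 * q → ∀ h1 : d ∣ N0 * q * q,
        σ (JF (N0 * q * q) d h1) = Jser d) ∧
      (∀ (d : ℕ) [NeZero d], d ∣ N0 → ∀ h1 : d * q * q ∣ N0 * q * q,
        σ (JF (N0 * q * q) (d * q * q) h1) = B.twist ζ (Jser d)) := by
  obtain ⟨ζ₀, hζ₀, σ₀, h1, h2⟩ := haux
  obtain ⟨τ, hτ⟩ := exists_gal_of_isPrimitiveRoot hζ₀ hζ
  refine ⟨conj _ τ σ₀, ?_, ?_⟩
  · intro d _ hd hd'
    rw [conj_apply, galF_JF, h1 d hd hd', coeffMap_Jser]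
  · intro d _ hd hd'
    rw [conj_apply, galF_JF, h2 d hd hd', coeffMap_twist τ hτ, coeffMap_Jser]

end Fermat.Agent.S36.Mod

end
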