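/-
S36, modular part, block S0, task S36-MOD-E1 (owner helper274).

The Atkin-Lehner involution `w_Q` on the function field of `X₀(N0 Q)` over `ℚ̄`, from `S24/B`.
`γ = !![a, b; N0, Q] ∈ SL(2,ℤ)`;  `Φ f = texpL N (γ⁻¹ • Psi N f)` (the expansion of `f ∘ γ`);
`diag(d e, 1) γ = γ' !![d, 0; 0, e]` with `γ' = !![e a, d b; N0 / d, Q / e] ∈ SL(2,ℤ)`, so that
`Φ (j (q^{d e})) = j (t ^ (N0 d e'))`, `e e' = Q`.
-/
import Fermat.Agent.S24.B.Field

set_option autoImplicit false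

noncomputable section

namespace Fermat.Agent.S36.Mod

open UpperHalfPlane ModularCurve Fermat.Agent.S24 Fermat.Agent.S24.B
open scoped MatrixGroups Real

namespace AL

/-- the matrix identity behind the Atkin-Lehner involution, on `jfun`. -/
theorem jfun_dil_smul (a b : ℤ) (N0 Q d d' e e' : ℕ) [NeZero d] [NeZero e]
    (hdet : a * Q - b * N0 = 1) (hd : d * d' = N0) (he : e * e' = Q)
    (γ : SL(2, ℤ)) (hγ : γ.1 = !![a, b; (N0 : ℤ), (Q : ℤ)]) (hdpos : (0 : ℤ) < d)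
    (hepos : (0 : ℤ) < e) (τ : ℍ) :
    jfun (dilMat (d * e) • (γ • τ)) = jfun (triMat d 0 e hdpos hepos • τ) := by
  have hdet' : (!![(e : ℤ) * a, d * b; (d' : ℤ), (e' : ℤ)]).det = 1 := by
    rw [Matrix.det_fin_two_of, ← hdet, ← hd, ← he]
    push_cast
    ring
  set γ' : SL(2, ℤ) := ⟨!![(e : ℤ) * a, d * b; (d' : ℤ), (e' : ℤ)], hdet'⟩ with hγ'
  have h00 : γ.1 0 0 = a := by rw [hγ]; rfl
  have h01 : γ.1 0 1 = b := by rw [hγ]; rfl
  have h10 : γ.1 1 0 = N0 := by rw [hγ]; rfl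
  have h11 : γ.1 1 1 = Q := by rw [hγ]; rfl
  have hmat : dilMat (d * e) * (γ : GL (Fin 2) ℝ) =
      (γ' : GL (Fin 2) ℝ) * triMat d 0 e hdpos hepos := by
    apply Units.ext
    rw [Units.val_mul, Units.val_mul, coe_triMat]
    have hN0 : (N0 : ℝ) = d * d' := by rw [← hd]; push_cast; ring
    have hQ : (Q : ℝ) = e * e' := by rw [← he]; push_cast; ring
    ext i j
    fin_cases i <;> fin_cases j
    · simp [dilMat, Matrix.mul_apply, Fin.sum_univ_two, hγ', h00]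
      ring
    · simp [dilMat, Matrix.mul_apply, Fin.sum_univ_two, hγ', h01]
      ring
    · simp [dilMat, Matrix.mul_apply, Fin.sum_univ_two, hγ', h10, hN0]
      ring
    · simp [dilMat, Matrix.mul_apply, Fin.sum_univ_two, hγ', h11, hQ]
      ring
  have h1 : dilMat (d * e) • (γ • τ) = γ' • (triMat d 0 e hdpos hepos • τ) := by
    show dilMat (d * e) • ((γ : GL (Fin 2) ℝ) • τ) =
      (γ' : GL (Fin 2) ℝ) • (triMat d 0 e hdpos hepos • τ)
    rw [← mul_smul, hmat, mul_smul]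
  rw [h1]
  exact Stubs.jfun_smul γ' _

variable {N : ℕ} [NeZero N]

/-- the expansion of `j (d e γ τ)`. -/
theorem texp_smul_jd (a b : ℤ) (N0 Q d e e' : ℕ) [NeZero N0] [NeZero d] [NeZero e] [NeZero e']
    (hN : N = N0 * Q) (hdet : a * Q - b * N0 = 1) (hd : d ∣ N0) (he : e * e' = Q)
    (γ : SL(2, ℤ)) (hγ : γ.1 = !![a, b; (N0 : ℤ), (Q : ℤ)]) (h1 : d * e ∣ N) :
    texp N (γ⁻¹ • jd N (d * e) h1) = qExpand Kbar N0 (Jser (d * e')) := by
  obtain ⟨d', hd'⟩ := hd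
  apply texp_eq
  have hdpos : (0 : ℤ) < (d : ℤ) := by exact_mod_cast Nat.pos_of_ne_zero (NeZero.ne d)
  have hepos : (0 : ℤ) < (e : ℤ) := by exact_mod_cast Nat.pos_of_ne_zero (NeZero.ne e)
  have h := hasTExp_tri (N := N) Stubs.hasTExp_jfun (d : ℤ) 0 (e : ℤ) hdpos hepos
    (N0 * (d * e')) (by rw [hN, ← he]; push_cast; ring) 1 (by simp)
  rw [twist_one] at h
  rw [Jser_eq_qExpand (d * e'), qExpand_qExpand]
  convert h using 1
  funext τ
  show jfun (dilMat (d * e) • ((γ⁻¹)⁻¹ • τ)) = _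
  rw [inv_inv]
  exact jfun_dil_smul a b N0 Q d d' e e' hdet hd'.symm he γ hγ hdpos hepos τ

variable (N)

/-- the action of an element of `SL(2,ℤ)` on `LN N` as a `ℚ̄`-algebra homomorphism. -/
def smulHom (γ : SL(2, ℤ)) : LN N →ₐ[Kbar] LN N :=
  { MulSemiringAction.toRingHom SL(2, ℤ) (LN N) γ with
    commutes' := fun c => smul_algebraMap_Kbar γ c }

variable {N}

theorem smulHom_apply (γ : SL(2, ℤ)) (g : LN N) : smulHom N γ g = γ • g := rfl

variable (N)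

/-- the expansion of `f ∘ γ`. -/
def expAt (γ : SL(2, ℤ)) : FN N →ₐ[Kbar] LaurentSeries Kbar :=
  (texpL N).comp ((smulHom N γ⁻¹).comp (Psi N))

/-- `f(q) ↦ f(t ^ M)` on the function field. -/
def phiM (M : ℕ) [NeZero M] : FN N →ₐ[Kbar] LaurentSeries Kbar where
  toFun f := qExpand Kbar M f.1
  map_one' := map_one _
  map_mul' _ _ := map_mul _ _ _
  map_zero' := map_zero _
  map_add' _ _ := map_add _ _ _
  commutes' c := by
    show qExpand Kbar M (algebraMap Kbar (LaurentSeries Kbar) c) = _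
    rw [algebraMap_laurentSeries_eq_single, qExpand_single, mul_zero]

variable {N}

theorem phiM_apply (M : ℕ) [NeZero M] (f : FN N) : phiM N M f = qExpand Kbar M f.1 := rfl

theorem phiM_injective (M : ℕ) [NeZero M] : Function.Injective (phiM N M) :=
  (phiM N M).toRingHom.injective

theorem expAt_JF (a b : ℤ) (N0 Q d e e' : ℕ) [NeZero N0] [NeZero d] [NeZero e] [NeZero e']
    (hN : N = N0 * Q) (hdet : a * Q - b * N0 = 1) (hd : d ∣ N0) (he : e * e' = Q)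
    (γ : SL(2, ℤ)) (hγ : γ.1 = !![a, b; (N0 : ℤ), (Q : ℤ)]) (h1 : d * e ∣ N)
    (h2 : d * e' ∣ N) :
    expAt N γ (JF N (d * e) h1) = phiM N N0 (JF N (d * e') h2) := by
  show texpL N (γ⁻¹ • Psi N (JF N (d * e) h1)) = qExpand Kbar N0 (Jser (d * e'))
  rw [Psi_JF, smul_algebraMap_AL, texpL_algebraMap,
    texp_smul_jd a b N0 Q d e e' hN hdet hd he γ hγ h1]

theorem JF_congr {d d' : ℕ} [NeZero d] [NeZero d'] (h : d = d') (hd : d ∣ N) (hd' : d' ∣ N) :
    JF N d hd = JF N d' hd' := by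
  subst h; rfl

theorem exists_phiM_eq (a b : ℤ) (N0 Q : ℕ) [NeZero N0] (hN : N = N0 * Q)
    (hcop : N0.Coprime Q) (hdet : a * Q - b * N0 = 1)
    (γ : SL(2, ℤ)) (hγ : γ.1 = !![a, b; (N0 : ℤ), (Q : ℤ)]) (f : FN N) :
    ∃ g : FN N, phiM N N0 g = expAt N γ f := by
  induction f using FN_induction with
  | hJ δ _ hδ =>
    have hQ0 : Q ≠ 0 := by
      rintro rfl
      exact NeZero.ne N (by rw [hN, mul_zero])
    have hδ0 : δ ≠ 0 := NeZero.ne δ
    have hfac : δ = Nat.gcd δ N0 * Nat.gcd δ Q := by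
      rw [← Nat.Coprime.gcd_mul δ hcop, ← hN]
      exact (Nat.gcd_eq_left hδ).symm
    obtain ⟨e', he'⟩ := Nat.gcd_dvd_right δ Q
    have : NeZero (Nat.gcd δ N0) := ⟨Nat.gcd_ne_zero_left hδ0⟩
    have : NeZero (Nat.gcd δ Q) := ⟨Nat.gcd_ne_zero_left hδ0⟩
    have : NeZero e' := ⟨by
      rintro rfl
      exact hQ0 (by rw [he', mul_zero])⟩
    have h1 : Nat.gcd δ N0 * Nat.gcd δ Q ∣ N := hfac ▸ hδ
    have h2 : Nat.gcd δ N0 * e' ∣ N := by
      rw [hN]
      exact Nat.mul_dvd_mul (Nat.gcd_dvd_right δ N0) ⟨Nat.gcd δ Q, he'.trans (mul_comm _ _)⟩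
    refine ⟨JF N (Nat.gcd δ N0 * e') h2, ?_⟩
    rw [JF_congr hfac hδ h1]
    exact (expAt_JF a b N0 Q _ _ e' hN hdet (Nat.gcd_dvd_right δ N0) he'.symm γ hγ h1 h2).symm
  | hc c => exact ⟨algebraMap Kbar (FN N) c, by rw [AlgHom.commutes, AlgHom.commutes]⟩
  | hadd f g hf hg =>
    obtain ⟨f', hf'⟩ := hf
    obtain ⟨g', hg'⟩ := hg
    exact ⟨f' + g', by rw [map_add, map_add, hf', hg']⟩
  | hneg f hf =>
    obtain ⟨f', hf'⟩ := hf
    exact ⟨-f', by rw [map_neg, map_neg, hf']⟩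
  | hmul f g hf hg =>
    obtain ⟨f', hf'⟩ := hf
    obtain ⟨g', hg'⟩ := hg
    exact ⟨f' * g', by rw [map_mul, map_mul, hf', hg']⟩
  | hinv f hf =>
    obtain ⟨f', hf'⟩ := hf
    exact ⟨f'⁻¹, by rw [map_inv₀, map_inv₀, hf']⟩

end AL

open AL in
/-- **Atkin-Lehner involution** `w_Q` on the function field of `X₀(N0 Q)` over `ℚ̄`. -/
theorem exists_atkinLehner_bar' (N N0 Q : ℕ) [NeZero N] (hN : N = N0 * Q)
    (hcop : N0.Coprime Q) :
    ∃ w : FN N →ₐ[Kbar] FN N,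
      ∀ (d e e' : ℕ) [NeZero d] [NeZero e] [NeZero e'], d ∣ N0 → e * e' = Q →
        ∀ (h1 : d * e ∣ N) (h2 : d * e' ∣ N), w (JF N (d * e) h1) = JF N (d * e') h2 := by
  have : NeZero N0 := ⟨by
    rintro rfl
    exact NeZero.ne N (by rw [hN, zero_mul])⟩
  obtain ⟨u, v, huv⟩ := Nat.isCoprime_iff_coprime.mpr hcop
  have hdet : v * Q - (-u) * N0 = 1 := by linarith
  have hdet' : (!![v, -u; (N0 : ℤ), (Q : ℤ)]).det = 1 := by
    rw [Matrix.det_fin_two_of]; exact hdet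
  set γ : SL(2, ℤ) := ⟨!![v, -u; (N0 : ℤ), (Q : ℤ)], hdet'⟩ with hγ
  have hmem : ∀ f : FN N, expAt N γ f ∈ (phiM N N0).range := fun f =>
    exists_phiM_eq v (-u) N0 Q hN hcop hdet γ rfl f
  set E := AlgEquiv.ofInjective (phiM N N0) (phiM_injective N0) with hE
  refine ⟨(E.symm : (phiM N N0).range →ₐ[Kbar] FN N).comp
    ((expAt N γ).codRestrict (phiM N N0).range hmem), ?_⟩
  intro d e e' _ _ _ hd he h1 h2
  apply phiM_injective N0
  rw [← expAt_JF v (-u) N0 Q d e e' hN hdet hd he γ rfl h1 h2]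
  have key : ∀ x : (phiM N N0).range, phiM N N0 (E.symm x) = x := fun x => by
    have := E.apply_symm_apply x
    exact congrArg Subtype.val this
  exact key _

end Fermat.Agent.S36.Mod

end
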